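import Mathlib
import Fermat.Agent.BR3.CircleN.Assembly
import Fermat.Agent.BR.Refine.Final

/-!
# Program C (S36), node (C-SREF), part 1: the one-level refinement `S'ref` as an explicit object

`S₀` a semistable setup with annulus charts `I : CircleInputsN S₀` (any family of components), and
for every node `e` ONE admissible gauge `a₀ e` (`|thick e| < |a₀ e| < 1`: in Program C the critical
radius of the annulus).

* `oneLevel I a₀ hadm : Refine.ChainFamily S₀` : the chain family with exactly one level per node,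
  at the gauge `a₀ e`; `oneLevel_n`, `oneLevel_u`, `oneLevel_a` (`rfl`);
* `lvl e` : the level of the node `e`; `eq_lvl`, `lvlEquiv : ν₀ ≃ (oneLevel I a₀ hadm).X`;
* `sref I a₀ hadm : SS.SemistableSetup A (residue A) (ι₀ ⊕ X) (FtR Ft₀ A X) (ν₀ ⊕ X)` : the refined
  setup.  Its components are the old ones `old v` and the exceptional lines `exc e` (the circle
  `|u e| = |a₀ e|`, valuation ring `circleRing`, residue field `RatFunc k`, coordinate
  `X = res (u e / a₀ e)`); its nodes are `outer e` (joining `s₁ e` on `src e` to `X = ∞` on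
  `exc e`; tube `|a₀ e| < |u e| < 1`) and `inner e` (joining `X = 0` on `exc e` to `s₂ e` on
  `tgt e`; tube `|thick e| < |u e| < |a₀ e|`);
* `rfl`-lemmas `sref_O_old`, `sref_O_exc`, `sref_res_old`, `sref_res_exc`, `sref_src_outer`,
  `sref_s₁_outer`, `sref_src_inner`, `sref_s₁_inner`, and `sref_tgtPt_outer`, `sref_tgtPt_inner`;
* the tubes `tube_outer`, `tube_inner`; the fibres of the reduction map `sref_r_eq_old_iff`,
  `sref_r_eq_exc_iff`; `isSmoothPlace_sref_iff`;
* `compEquiv : ι₀ ⊕ ν₀ ≃ ι₀ ⊕ X`, `nodeEquiv : ν₀ ⊕ ν₀ ≃ ν₀ ⊕ X`;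
* `riemannPkg_sref`, `genus_sref`, `noTorsionInKernel_sref`.
-/

set_option autoImplicit false
set_option linter.unusedSectionVars false

noncomputable section

namespace Fermat.Agent.BR3.SRef

open AlgebraicCurve IsLocalRing Fermat.Agent.Red Fermat.Agent.BR.InertiaRed
  Fermat.Agent.BR.AnnulusRed Fermat.Agent.BR.P1 Fermat.Agent.BR.Centre Fermat.Agent.BR.SS
  Fermat.Agent.BR.Refine Fermat.Agent.BR.Circle Fermat.Agent.BR3.CircleN

variable {K : Type} {F : Type*} [Field K] [Field F] [Algebra K F]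
  {A : ValuationSubring K} [IsAlgClosed (ResidueField A)]
  {ι₀ : Type} {Ft₀ : ι₀ → Type} [∀ v, Field (Ft₀ v)] [∀ v, Algebra (ResidueField A) (Ft₀ v)]
  {ν₀ : Type}
  {S₀ : SemistableSetup (F := F) A (residue A) ι₀ Ft₀ ν₀}
  (I : CircleInputsN S₀) (a₀ : ν₀ → K) (hadm : ∀ e, I.adm e (a₀ e))

local notation "k" => ResidueField A

/-- **The chain family with one level per node**, at the gauge `a₀ e`. -/
def oneLevel : ChainFamily S₀ :=
  I.chainFamily (fun _ => 1) (fun e _ => a₀ e) (fun e _ => hadm e)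
    (fun _ => Subsingleton.strictAnti _)

@[simp] theorem oneLevel_n (e : ν₀) : (oneLevel I a₀ hadm).n e = 1 := rfl

@[simp] theorem oneLevel_u (e : ν₀) : (oneLevel I a₀ hadm).u e = (I.ch e).u := rfl

@[simp] theorem oneLevel_a (e : ν₀) (i : Fin ((oneLevel I a₀ hadm).n e)) :
    (oneLevel I a₀ hadm).a e i = a₀ e := rfl

/-- The level of the node `e`. -/
def lvl (e : ν₀) : (oneLevel I a₀ hadm).X := ⟨e, ⟨0, Nat.one_pos⟩⟩

@[simp] theorem lvl_fst (e : ν₀) : (lvl I a₀ hadm e).1 = e := rfl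

theorem eq_lvl (x : (oneLevel I a₀ hadm).X) : x = lvl I a₀ hadm x.1 := by
  obtain ⟨e, i⟩ := x
  have hi : i = ⟨0, Nat.one_pos⟩ := Fin.ext (Nat.lt_one_iff.mp i.2)
  rw [hi]
  rfl

/-- The levels are the nodes. -/
def lvlEquiv : ν₀ ≃ (oneLevel I a₀ hadm).X where
  toFun := lvl I a₀ hadm
  invFun := fun x => x.1
  left_inv := fun _ => rfl
  right_inv := fun x => (eq_lvl I a₀ hadm x).symm

theorem oneLevel_O (e : ν₀) :
    (oneLevel I a₀ hadm).O (lvl I a₀ hadm e) =
      circleRing (I.ch e).toCore (a₀ e) (hadm e).1 (hadm e).2 := rfl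

theorem oneLevel_res (e : ν₀) :
    (oneLevel I a₀ hadm).res (lvl I a₀ hadm e) =
      circleRes (I.ch e).toCore (a₀ e) (hadm e).1 (hadm e).2 := rfl

/-- **The refined setup `S'ref`**: every node of `S₀` is replaced by one exceptional line. -/
def sref : SemistableSetup (F := F) A (residue A) (ι₀ ⊕ (oneLevel I a₀ hadm).X)
    (FtR Ft₀ A (oneLevel I a₀ hadm).X) (ν₀ ⊕ (oneLevel I a₀ hadm).X) :=
  (oneLevel I a₀ hadm).refined

/-- An old component, as a component of `S'ref`. -/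
def old (v : ι₀) : ι₀ ⊕ (oneLevel I a₀ hadm).X := Sum.inl v

/-- The exceptional component of the node `e`. -/
def exc (e : ν₀) : ι₀ ⊕ (oneLevel I a₀ hadm).X := Sum.inr (lvl I a₀ hadm e)

/-- The outer node of `e`: it joins `src e` and the exceptional component. -/
def outer (e : ν₀) : ν₀ ⊕ (oneLevel I a₀ hadm).X := Sum.inl e

/-- The inner node of `e`: it joins the exceptional component and `tgt e`. -/
def inner (e : ν₀) : ν₀ ⊕ (oneLevel I a₀ hadm).X := Sum.inr (lvl I a₀ hadm e)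

/-- The components of `S'ref`. -/
def compEquiv : ι₀ ⊕ ν₀ ≃ ι₀ ⊕ (oneLevel I a₀ hadm).X :=
  Equiv.sumCongr (Equiv.refl ι₀) (lvlEquiv I a₀ hadm)

/-- The nodes of `S'ref`. -/
def nodeEquiv : ν₀ ⊕ ν₀ ≃ ν₀ ⊕ (oneLevel I a₀ hadm).X :=
  Equiv.sumCongr (Equiv.refl ν₀) (lvlEquiv I a₀ hadm)

@[simp] theorem compEquiv_inl (v : ι₀) : compEquiv I a₀ hadm (Sum.inl v) = old I a₀ hadm v := rfl

@[simp] theorem compEquiv_inr (e : ν₀) : compEquiv I a₀ hadm (Sum.inr e) = exc I a₀ hadm e := rfl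

@[simp] theorem nodeEquiv_inl (e : ν₀) : nodeEquiv I a₀ hadm (Sum.inl e) = outer I a₀ hadm e := rfl

@[simp] theorem nodeEquiv_inr (e : ν₀) : nodeEquiv I a₀ hadm (Sum.inr e) = inner I a₀ hadm e := rfl

/-- Every component of `S'ref` is an old component or an exceptional one. -/
theorem comp_cases (w : ι₀ ⊕ (oneLevel I a₀ hadm).X) :
    (∃ v, w = old I a₀ hadm v) ∨ ∃ e, w = exc I a₀ hadm e := by
  rcases w with v | x
  · exact Or.inl ⟨v, rfl⟩
  · exact Or.inr ⟨x.1, congrArg Sum.inr (eq_lvl I a₀ hadm x)⟩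

/-- Every node of `S'ref` is an outer node or an inner node. -/
theorem node_cases (x : ν₀ ⊕ (oneLevel I a₀ hadm).X) :
    (∃ e, x = outer I a₀ hadm e) ∨ ∃ e, x = inner I a₀ hadm e := by
  rcases x with e | x
  · exact Or.inl ⟨e, rfl⟩
  · exact Or.inr ⟨x.1, congrArg Sum.inr (eq_lvl I a₀ hadm x)⟩

/-! ### The components -/

@[simp] theorem sref_O_old (v : ι₀) : (sref I a₀ hadm).O (old I a₀ hadm v) = S₀.O v := rfl

@[simp] theorem sref_res_old (v : ι₀) : (sref I a₀ hadm).res (old I a₀ hadm v) = S₀.res v := rfl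

theorem sref_O_exc (e : ν₀) :
    (sref I a₀ hadm).O (exc I a₀ hadm e) =
      circleRing (I.ch e).toCore (a₀ e) (hadm e).1 (hadm e).2 := rfl

theorem sref_res_exc (e : ν₀) :
    (sref I a₀ hadm).res (exc I a₀ hadm e) =
      circleRes (I.ch e).toCore (a₀ e) (hadm e).1 (hadm e).2 := rfl

/-- The residue field of the exceptional component is `k(X)`. -/
theorem ftR_exc (e : ν₀) :
    FtR Ft₀ A (oneLevel I a₀ hadm).X (exc I a₀ hadm e) = RatFunc k := rfl

theorem ftR_old (v : ι₀) : FtR Ft₀ A (oneLevel I a₀ hadm).X (old I a₀ hadm v) = Ft₀ v := rfl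

/-! ### The nodes -/

@[simp] theorem sref_src_outer (e : ν₀) :
    (sref I a₀ hadm).src (outer I a₀ hadm e) = old I a₀ hadm (S₀.src e) := rfl

@[simp] theorem sref_s₁_outer (e : ν₀) :
    (sref I a₀ hadm).s₁ (outer I a₀ hadm e) = S₀.s₁ e := rfl

@[simp] theorem sref_src_inner (e : ν₀) :
    (sref I a₀ hadm).src (inner I a₀ hadm e) = exc I a₀ hadm e := rfl

@[simp] theorem sref_s₁_inner (e : ν₀) :
    (sref I a₀ hadm).s₁ (inner I a₀ hadm e) = placeAt k 0 := rfl

/-- The target branch of the outer node: the point `X = ∞` of the exceptional component. -/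
theorem sref_tgtPt_outer (e : ν₀) :
    (⟨(sref I a₀ hadm).tgt (outer I a₀ hadm e), (sref I a₀ hadm).s₂ (outer I a₀ hadm e)⟩ :
      (oneLevel I a₀ hadm).PtR) = ⟨exc I a₀ hadm e, placeInfty k⟩ :=
  ChainFamily.tgtPt_inl_pos (C := oneLevel I a₀ hadm) (e := e) Nat.one_pos

/-- The target branch of the inner node: the branch `s₂ e` of the component `tgt e`. -/
theorem sref_tgtPt_inner (e : ν₀) :
    (⟨(sref I a₀ hadm).tgt (inner I a₀ hadm e), (sref I a₀ hadm).s₂ (inner I a₀ hadm e)⟩ :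
      (oneLevel I a₀ hadm).PtR) = ⟨old I a₀ hadm (S₀.tgt e), S₀.s₂ e⟩ :=
  ChainFamily.tgtPt_inr_last (C := oneLevel I a₀ hadm) (e := e) (i := ⟨0, Nat.one_pos⟩)
    (by simp)

@[simp] theorem sref_tgt_outer (e : ν₀) :
    (sref I a₀ hadm).tgt (outer I a₀ hadm e) = exc I a₀ hadm e :=
  congrArg Sigma.fst (sref_tgtPt_outer I a₀ hadm e)

@[simp] theorem sref_tgt_inner (e : ν₀) :
    (sref I a₀ hadm).tgt (inner I a₀ hadm e) = old I a₀ hadm (S₀.tgt e) :=
  congrArg Sigma.fst (sref_tgtPt_inner I a₀ hadm e)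

/-! ### The tubes and the reduction map -/

/-- **The tube of the outer node**: `|a₀ e| < |u e| < 1`. -/
theorem tube_outer (e : ν₀) :
    tube (sref I a₀ hadm) (outer I a₀ hadm e) =
      {P | P ∈ tube S₀ e ∧ A.valuation (a₀ e) < A.valuation (evalAt P (I.ch e).u)} := by
  ext P
  exact (ChainFamily.rRef_eq_srcPt_inl_iff (C := oneLevel I a₀ hadm)).trans
    (ChainFamily.first_iff_of_pos (C := oneLevel I a₀ hadm) (e := e) Nat.one_pos)

/-- **The tube of the inner node**: `|thick e| < |u e| < |a₀ e|`. -/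
theorem tube_inner (e : ν₀) :
    tube (sref I a₀ hadm) (inner I a₀ hadm e) =
      {P | P ∈ tube S₀ e ∧ A.valuation (evalAt P (I.ch e).u) < A.valuation (a₀ e)} := by
  ext P
  exact (ChainFamily.rRef_eq_srcPt_inr_iff (C := oneLevel I a₀ hadm)).trans
    (ChainFamily.below_iff_of_last (C := oneLevel I a₀ hadm) (e := e)
      (i := ⟨0, Nat.one_pos⟩) (by simp))

/-- The tubes of the two nodes over `e` are contained in the tube of `e`. -/
theorem tube_outer_subset (e : ν₀) :
    tube (sref I a₀ hadm) (outer I a₀ hadm e) ⊆ tube S₀ e := by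
  rw [tube_outer]
  exact fun P hP => hP.1

theorem tube_inner_subset (e : ν₀) :
    tube (sref I a₀ hadm) (inner I a₀ hadm e) ⊆ tube S₀ e := by
  rw [tube_inner]
  exact fun P hP => hP.1

/-- The places of the circle `|u e| = |a₀ e|`. -/
def circle (e : ν₀) : Set (Place K F) :=
  {P | P ∈ tube S₀ e ∧ A.valuation (evalAt P (I.ch e).u) = A.valuation (a₀ e)}

theorem onLevel_lvl_iff {e : ν₀} {P : Place K F} :
    (oneLevel I a₀ hadm).OnLevel (lvl I a₀ hadm e) P ↔ P ∈ circle I a₀ e := Iff.rfl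

/-- The tube of `e` is the disjoint union of the outer tube, the circle and the inner tube. -/
theorem tube_trichotomy {e : ν₀} {P : Place K F} (hP : P ∈ tube S₀ e) :
    P ∈ tube (sref I a₀ hadm) (outer I a₀ hadm e) ∨ P ∈ circle I a₀ e ∨
      P ∈ tube (sref I a₀ hadm) (inner I a₀ hadm e) := by
  rw [tube_outer, tube_inner]
  rcases lt_trichotomy (A.valuation (a₀ e)) (A.valuation (evalAt P (I.ch e).u)) with h | h | h
  · exact Or.inl ⟨hP, h⟩
  · exact Or.inr (Or.inl ⟨hP, h.symm⟩)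
  · exact Or.inr (Or.inr ⟨hP, h⟩)

/-- **The fibres of the reduction map over an exceptional component**: the places of the circle go
to the points `X = ū ≠ 0`, the places of the inner tube to `X = 0`. -/
theorem sref_r_eq_exc_iff {P : Place K F} {e : ν₀} {Q : Place k (RatFunc k)} :
    (sref I a₀ hadm).r P = (⟨exc I a₀ hadm e, Q⟩ : (oneLevel I a₀ hadm).PtR) ↔
      (P ∈ circle I a₀ e ∧ Q = placeAt k (ubar A (I.ch e).u (a₀ e) P)) ∨
      (P ∈ tube (sref I a₀ hadm) (inner I a₀ hadm e) ∧ Q = placeAt k 0) := by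
  have h1 := ChainFamily.rRef_eq_inr_iff (C := oneLevel I a₀ hadm) (P := P)
    (x := lvl I a₀ hadm e) (Q := Q)
  have h2 : P ∈ tube (sref I a₀ hadm) (inner I a₀ hadm e) ↔
      (oneLevel I a₀ hadm).Below (lvl I a₀ hadm e) P :=
    ChainFamily.rRef_eq_srcPt_inr_iff (C := oneLevel I a₀ hadm)
  rw [h2]
  exact h1

/-- The places of the circle reduce to the point `X = ū` of the exceptional component. -/
theorem sref_r_of_circle {P : Place K F} {e : ν₀} (hP : P ∈ circle I a₀ e) :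
    (sref I a₀ hadm).r P =
      (⟨exc I a₀ hadm e, placeAt k (ubar A (I.ch e).u (a₀ e) P)⟩ : (oneLevel I a₀ hadm).PtR) :=
  (sref_r_eq_exc_iff I a₀ hadm).mpr (Or.inl ⟨hP, rfl⟩)

include hadm in
theorem ubar_ne_zero_of_circle {P : Place K F} {e : ν₀} (hP : P ∈ circle I a₀ e) :
    ubar A (I.ch e).u (a₀ e) P ≠ 0 :=
  ChainFamily.ubar_ne_zero_of_onLevel (C := oneLevel I a₀ hadm) (x := lvl I a₀ hadm e) hP

/-- **The fibres of the reduction map over an old component**: the places which reduce there in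
`S₀`, outside the circles and the inner tubes. -/
theorem sref_r_eq_old_iff {P : Place K F} {v : ι₀} {Q : Place k (Ft₀ v)} :
    (sref I a₀ hadm).r P = (⟨old I a₀ hadm v, Q⟩ : (oneLevel I a₀ hadm).PtR) ↔
      S₀.r P = ⟨v, Q⟩ ∧
        ((∃ e, P ∈ tube (sref I a₀ hadm) (outer I a₀ hadm e)) ∨ ∀ e, P ∉ tube S₀ e) := by
  have h1 := ChainFamily.rRef_eq_inl_iff (C := oneLevel I a₀ hadm) (P := P) (v := v) (Q := Q)
  have h2 : ∀ e, P ∈ tube (sref I a₀ hadm) (outer I a₀ hadm e) ↔
      (oneLevel I a₀ hadm).First e P := fun e =>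
    ChainFamily.rRef_eq_srcPt_inl_iff (C := oneLevel I a₀ hadm)
  simp only [h2]
  exact h1

/-- **The smooth places of `S'ref`**: the places of the circles and the places outside the tubes
of `S₀`. -/
theorem isSmoothPlace_sref_iff (P : Place K F) :
    (sref I a₀ hadm).IsSmoothPlace P ↔ (∃ e, P ∈ circle I a₀ e) ∨ ∀ e, P ∉ tube S₀ e := by
  rw [sref, ChainFamily.isSmoothPlace_refined_iff]
  constructor
  · rintro (⟨x, hx⟩ | h)
    · rw [eq_lvl I a₀ hadm x] at hx
      exact Or.inl ⟨x.1, hx⟩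
    · exact Or.inr h
  · rintro (⟨e, he⟩ | h)
    · exact Or.inl ⟨lvl I a₀ hadm e, he⟩
    · exact Or.inr h

/-! ### Genus, Riemann packages, no torsion in the kernel of the reduction -/

theorem riemannPkg_sref (hFt : ∀ v, RiemannPkg k (Ft₀ v)) :
    ∀ w, RiemannPkg k (FtR Ft₀ A (oneLevel I a₀ hadm).X w) :=
  (oneLevel I a₀ hadm).riemannPkgR hFt

/-- The exceptional components have genus `0`. -/
theorem genusFF_exc (e : ν₀) :
    genusFF k (FtR Ft₀ A (oneLevel I a₀ hadm).X (exc I a₀ hadm e)) = 0 :=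
  (oneLevel I a₀ hadm).genusFF_FtR_inr _

/-- The genus equality is inherited by `S'ref`. -/
theorem genus_sref [Fintype ι₀] [Fintype ν₀]
    (hg : (genusFF K F : ℤ) = ∑ v, (genusFF k (Ft₀ v) : ℤ)
      + Fintype.card ν₀ - Fintype.card ι₀ + 1) :
    (genusFF K F : ℤ) =
      ∑ w : ι₀ ⊕ (oneLevel I a₀ hadm).X,
        (genusFF k (FtR Ft₀ A (oneLevel I a₀ hadm).X w) : ℤ)
      + Fintype.card (ν₀ ⊕ (oneLevel I a₀ hadm).X)
      - Fintype.card (ι₀ ⊕ (oneLevel I a₀ hadm).X) + 1 :=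
  (oneLevel I a₀ hadm).genus_refined hg

/-- **No torsion in the kernel of the reduction for `S'ref`.** -/
theorem noTorsionInKernel_sref [Fintype ι₀] [Fintype ν₀] [IsAlgClosed K] (hA : IsRankOne A)
    (hF : RiemannPkg K F) (hFt : ∀ v, RiemannPkg k (Ft₀ v))
    (hg : (genusFF K F : ℤ) = ∑ v, (genusFF k (Ft₀ v) : ℤ)
      + Fintype.card ν₀ - Fintype.card ι₀ + 1) :
    NoTorsionInKernel (sref I a₀ hadm) :=
  (oneLevel I a₀ hadm).noTorsionInKernel_refined hA hF hFt hg

end Fermat.Agent.BR3.SRef
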