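import Mathlib
import Fermat.Agent.BR3.SRef.OneLevel

/-!
# Program C (S36), node (C-SREF), part 3: critical gauges

For `K` algebraically closed, an annulus of thickness `thick` has gauges `a` with
`a ^ n = thick ^ m` for all `0 < m < n`, and such a gauge is admissible: `|thick| < |a| < 1`
(`exists_pow_eq_pow`, `adm_of_valuation_pow_eq`).  In Program C: the critical circle along `a` is
`|a₀| ^ (q + 1) = |thick|` (`m = 1`, `n = q + 1`), the critical circle along `b` is
`|a₀| ^ (q + 1) = |thick| ^ q` (`m = q`, `n = q + 1`).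

`CircleInputsN.exists_gauge` : a family of gauges, one per node, with `a₀ e ^ n = thick e ^ m`.
-/

set_option autoImplicit false

noncomputable section

namespace Fermat.Agent.BR3.SRef

open AlgebraicCurve IsLocalRing Fermat.Agent.Red Fermat.Agent.BR.SS Fermat.Agent.BR.Refine
  Fermat.Agent.BR.Circle Fermat.Agent.BR3.CircleN

variable {K : Type} [Field K] {A : ValuationSubring K}

/-- A gauge with `|a| ^ n = |thick| ^ m`, `0 < m < n`, lies strictly between `|thick|` and `1`. -/
theorem adm_of_valuation_pow_eq {thick a : K} (hne : thick ≠ 0) (hlt : A.valuation thick < 1)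
    {m n : ℕ} (hm : 0 < m) (hmn : m < n)
    (h : A.valuation a ^ n = A.valuation thick ^ m) :
    A.valuation thick < A.valuation a ∧ A.valuation a < 1 := by
  have hpos : 0 < A.valuation thick :=
    lt_of_le_of_ne zero_le ((Valuation.ne_zero_iff _).mpr hne).symm
  constructor
  · by_contra hcon
    have h1 : A.valuation a ^ n ≤ A.valuation thick ^ n := pow_le_pow_left₀ zero_le (not_lt.mp hcon) n
    have h2 : A.valuation thick ^ n < A.valuation thick ^ m :=
      pow_lt_pow_right_of_lt_one₀ hpos hlt hmn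
    rw [h] at h1
    exact absurd (lt_of_le_of_lt h1 h2) (lt_irrefl _)
  · by_contra hcon
    have h1 : 1 ≤ A.valuation a ^ n := one_le_pow₀ (not_lt.mp hcon)
    have h2 : A.valuation thick ^ m < 1 := pow_lt_one₀ zero_le hlt hm.ne'
    rw [h] at h1
    exact absurd (lt_of_le_of_lt h1 h2) (lt_irrefl _)

/-- In an algebraically closed field every element has an `n`-th root (`0 < n`). -/
theorem exists_pow_eq_pow [IsAlgClosed K] (x : K) {n : ℕ} (hn : 0 < n) : ∃ a : K, a ^ n = x :=
  IsAlgClosed.exists_pow_nat_eq x hn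

variable {F : Type*} [Field F] [Algebra K F] [IsAlgClosed (ResidueField A)]
  {ι₀ : Type} {Ft₀ : ι₀ → Type} [∀ v, Field (Ft₀ v)] [∀ v, Algebra (ResidueField A) (Ft₀ v)]
  {ν₀ : Type} {S₀ : SemistableSetup (F := F) A (residue A) ι₀ Ft₀ ν₀}

/-- A family of gauges with `|a₀ e| ^ n = |thick e| ^ m` is admissible. -/
theorem adm_of_pow_eq (I : CircleInputsN S₀) {m n : ℕ} (hm : 0 < m) (hmn : m < n)
    {a₀ : ν₀ → K} (h : ∀ e, A.valuation (a₀ e) ^ n = A.valuation (I.ch e).thick ^ m) (e : ν₀) :
    I.adm e (a₀ e) :=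
  adm_of_valuation_pow_eq (I.ch e).thick_ne (I.ch e).thick_lt hm hmn (h e)

/-- **Critical gauges exist**: for `K` algebraically closed and `0 < m < n` there is a family of
gauges with `a₀ e ^ n = thick e ^ m`; it is admissible. -/
theorem exists_gauge [IsAlgClosed K] (I : CircleInputsN S₀) {m n : ℕ} (hm : 0 < m)
    (hmn : m < n) :
    ∃ a₀ : ν₀ → K, (∀ e, a₀ e ^ n = (I.ch e).thick ^ m) ∧ ∀ e, I.adm e (a₀ e) := by
  choose a₀ ha₀ using fun e => exists_pow_eq_pow ((I.ch e).thick ^ m) (lt_trans hm hmn)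
  refine ⟨a₀, ha₀, adm_of_pow_eq I hm hmn fun e => ?_⟩
  rw [← map_pow, ha₀ e, map_pow]

end Fermat.Agent.BR3.SRef
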