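import Mathlib
import Fermat.Agent.BR.Circle.Match
import Fermat.Agent.BR.Circle.Bound
import Fermat.Agent.BR.Circle.ConserveEnds

/-!
# Program C (S36), node (C-SREF), part 2: the K-level contract of a sub-annulus

`C : Circle.AnnulusCore A T` the K-level core of the tube `T` of a node (annulus coordinate `u`,
`T ≃ {|thick| < |c| < 1}`), `a : K` a gauge with `|thick| < |a| < 1`.

* `outerTube C a = {P ∈ T | |a| < |u(P)|}`, `innerTube C a = {P ∈ T | |u(P)| < |a|}`;
* `outerCore C a ha1 ha2 : AnnulusCore A (outerTube C a)` with the SAME coordinate `u` and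
  thickness `a` (`outerCore_u`, `outerCore_thick` by `rfl`);
* `innerCore C a ha1 ha2 : AnnulusCore A (innerTube C a)` with coordinate `a⁻¹ • u` and thickness
  `a⁻¹ * thick` (`innerCore_u`, `innerCore_thick` by `rfl`);
* closure properties of `Circle.TubeUnit` (`TubeUnit.mono`, `tubeUnit_one`, `TubeUnit.mul`,
  `TubeUnit.inv`, `TubeUnit.zpow`, `TubeUnit.prod`).

The factorisation of the sub-annulus is obtained from the factorisation of the annulus: a linear
factor `u - u(Q)` with `|u(Q)| ≤ |a|` is `u · (1 - u(Q)/u)` and `1 - u(Q)/u ≡ 1` on the outer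
tube; a linear factor with `|a| ≤ |u(Q)|` is `-u(Q) · (1 - u/u(Q))` and `1 - u/u(Q) ≡ 1` on the
inner tube.
-/

set_option autoImplicit false

noncomputable section

namespace Fermat.Agent.BR3.SRef

open AlgebraicCurve IsLocalRing Fermat.Agent.Red Fermat.Agent.BR.InertiaRed
  Fermat.Agent.BR.AnnulusRed Fermat.Agent.BR.P1 Fermat.Agent.BR.Centre Fermat.Agent.BR.Fact
  Fermat.Agent.BR.Circle Fermat.Agent.BR.Circle.Bound

variable {K : Type} {F : Type*} [Field K] [Field F] [Algebra K F]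
  {A : ValuationSubring K} {T : Set (Place K F)}

/-! ### Values congruent to `1` -/

theorem valuation_mul_sub_one_lt {d d' : K} (h : A.valuation (d - 1) < 1)
    (h' : A.valuation (d' - 1) < 1) : A.valuation (d * d' - 1) < 1 := by
  have h1 : d * d' - 1 = (d - 1) * d' + (d' - 1) := by ring
  rw [h1]
  refine lt_of_le_of_lt (Valuation.map_add _ _ _) (max_lt ?_ h')
  rw [map_mul, valuation_eq_one_of_sub_one_lt h', mul_one]
  exact h

theorem valuation_inv_sub_one_lt {d : K} (h : A.valuation (d - 1) < 1) :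
    A.valuation (d⁻¹ - 1) < 1 := by
  have hd0 : d ≠ 0 := ne_zero_of_valuation_sub_one_lt h
  have h1 : d⁻¹ - 1 = -(d - 1) * d⁻¹ := by
    field_simp
    ring
  rw [h1, map_mul, Valuation.map_neg, map_inv₀, valuation_eq_one_of_sub_one_lt h, inv_one,
    mul_one]
  exact h

/-! ### Closure properties of tube units -/

theorem TubeUnit.mono {T' : Set (Place K F)} (hT : T' ⊆ T) {ε : F} (hε : TubeUnit A T ε) :
    TubeUnit A T' ε := fun P hP => hε P (hT hP)

theorem tubeUnit_one : TubeUnit A T (1 : F) := fun P _ =>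
  ⟨1, isValueAt_one P, by rw [sub_self, map_zero]; exact zero_lt_one⟩

theorem TubeUnit.mul {ε ε' : F} (hε : TubeUnit A T ε) (hε' : TubeUnit A T ε') :
    TubeUnit A T (ε * ε') := fun P hP => by
  obtain ⟨d, h1, h2⟩ := hε P hP
  obtain ⟨d', h1', h2'⟩ := hε' P hP
  exact ⟨d * d', h1.mul h1', valuation_mul_sub_one_lt h2 h2'⟩

theorem TubeUnit.inv {ε : F} (hε : TubeUnit A T ε) : TubeUnit A T ε⁻¹ := fun P hP => by
  obtain ⟨d, h1, h2⟩ := hε P hP
  exact ⟨d⁻¹, IsValueAt.inv h1 (ne_zero_of_valuation_sub_one_lt h2), valuation_inv_sub_one_lt h2⟩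

theorem TubeUnit.pow {ε : F} (hε : TubeUnit A T ε) (n : ℕ) : TubeUnit A T (ε ^ n) := by
  induction n with
  | zero => rw [pow_zero]; exact tubeUnit_one
  | succ n ih => rw [pow_succ]; exact TubeUnit.mul ih hε

theorem TubeUnit.zpow {ε : F} (hε : TubeUnit A T ε) (n : ℤ) : TubeUnit A T (ε ^ n) := by
  rcases n with n | n
  · rw [Int.ofNat_eq_natCast, zpow_natCast]
    exact TubeUnit.pow hε n
  · rw [zpow_negSucc]
    exact TubeUnit.inv (TubeUnit.pow hε (n + 1))

theorem TubeUnit.prod {ι : Type*} (s : Finset ι) (f : ι → F) (h : ∀ i ∈ s, TubeUnit A T (f i)) :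
    TubeUnit A T (∏ i ∈ s, f i) := by
  classical
  induction s using Finset.induction_on with
  | empty => rw [Finset.prod_empty]; exact tubeUnit_one
  | insert i s hi ih =>
    rw [Finset.prod_insert hi]
    exact TubeUnit.mul (h i (Finset.mem_insert_self i s))
      (ih fun j hj => h j (Finset.mem_insert_of_mem hj))

/-! ### The two sub-annuli -/

/-- The outer sub-annulus `|a| < |u| < 1` of the tube. -/
def outerTube (C : AnnulusCore A T) (a : K) : Set (Place K F) :=
  {P | P ∈ T ∧ A.valuation a < A.valuation (evalAt P C.u)}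

/-- The inner sub-annulus `|thick| < |u| < |a|` of the tube. -/
def innerTube (C : AnnulusCore A T) (a : K) : Set (Place K F) :=
  {P | P ∈ T ∧ A.valuation (evalAt P C.u) < A.valuation a}

theorem outerTube_subset (C : AnnulusCore A T) (a : K) : outerTube C a ⊆ T := fun _ h => h.1

theorem innerTube_subset (C : AnnulusCore A T) (a : K) : innerTube C a ⊆ T := fun _ h => h.1

theorem mem_outerTube_iff {C : AnnulusCore A T} {a : K} {P : Place K F} :
    P ∈ outerTube C a ↔ P ∈ T ∧ A.valuation a < A.valuation (evalAt P C.u) := Iff.rfl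

theorem mem_innerTube_iff {C : AnnulusCore A T} {a : K} {P : Place K F} :
    P ∈ innerTube C a ↔ P ∈ T ∧ A.valuation (evalAt P C.u) < A.valuation a := Iff.rfl

/-- The quotient of a function by the monomial part of a factorisation. -/
theorem mul_inv_smul_eq {y X ε : F} {c : K} (hc : c ≠ 0) (hX : X ≠ 0)
    (h : y = algebraMap K F c * X * ε) : y * (c • X)⁻¹ = ε := by
  have hcF : algebraMap K F c ≠ 0 := (map_ne_zero _).mpr hc
  rw [h, Algebra.smul_def]
  field_simp

section Cores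

variable (C : AnnulusCore A T) (a : K) (ha1 : A.valuation C.thick < A.valuation a)
  (ha2 : A.valuation a < 1)

include ha1 in
theorem gauge_ne_zero' : a ≠ 0 := by
  rintro rfl
  rw [map_zero] at ha1
  exact not_lt_zero ha1

include ha1 ha2 in
theorem coord_ne_zero' : C.u ≠ 0 := by
  obtain ⟨P, ⟨hP, -⟩, -⟩ := C.bij a ha1 ha2
  exact u_ne_zero_of_mem C hP

/-- The factor `1 - u(Q)/u` of a point `Q` with `|u(Q)| ≤ |a|` is a tube unit of the outer
sub-annulus. -/
theorem tubeUnit_outer_factor {c : K} (hc : A.valuation c ≤ A.valuation a) :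
    TubeUnit A (outerTube C a) ((C.u - algebraMap K F c) * C.u⁻¹) := by
  intro P hP
  obtain ⟨h1, -, -⟩ := isValueAt_evalAt_u C hP.1
  have h0 : evalAt P C.u ≠ 0 := evalAt_u_ne_zero C hP.1
  refine ⟨(evalAt P C.u - c) * (evalAt P C.u)⁻¹,
    (h1.sub (isValueAt_algebraMap P c)).mul (IsValueAt.inv h1 h0), ?_⟩
  have h2 : (evalAt P C.u - c) * (evalAt P C.u)⁻¹ - 1 = -(c * (evalAt P C.u)⁻¹) := by
    field_simp
    ring
  rw [h2, Valuation.map_neg, map_mul, map_inv₀]
  have hpos : 0 < A.valuation (evalAt P C.u) :=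
    lt_of_le_of_ne zero_le ((Valuation.ne_zero_iff _).mpr h0).symm
  rw [← div_eq_mul_inv, div_lt_one₀ hpos]
  exact lt_of_le_of_lt hc hP.2

include ha1 in
/-- The factor `1 - u/u(Q)` of a point `Q` with `|a| ≤ |u(Q)|` is a tube unit of the inner
sub-annulus. -/
theorem tubeUnit_inner_factor {c : K} (hc : A.valuation a ≤ A.valuation c) :
    TubeUnit A (innerTube C a) ((C.u - algebraMap K F c) * (algebraMap K F (-c))⁻¹) := by
  have ha0 : a ≠ 0 := gauge_ne_zero' C a ha1
  have hc0 : c ≠ 0 := by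
    rintro rfl
    rw [map_zero] at hc
    exact ((Valuation.ne_zero_iff _).mpr ha0) (le_antisymm hc zero_le)
  intro P hP
  obtain ⟨h1, -, -⟩ := isValueAt_evalAt_u C hP.1
  have hv : IsValueAt P ((algebraMap K F (-c))⁻¹) (-c)⁻¹ :=
    IsValueAt.inv (isValueAt_algebraMap P (-c)) (neg_ne_zero.mpr hc0)
  refine ⟨(evalAt P C.u - c) * (-c)⁻¹, (h1.sub (isValueAt_algebraMap P c)).mul hv, ?_⟩
  have h2 : (evalAt P C.u - c) * (-c)⁻¹ - 1 = -(evalAt P C.u * c⁻¹) := by
    field_simp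
    ring
  rw [h2, Valuation.map_neg, map_mul, map_inv₀]
  have hpos : 0 < A.valuation c :=
    lt_of_le_of_ne zero_le ((Valuation.ne_zero_iff _).mpr hc0).symm
  rw [← div_eq_mul_inv, div_lt_one₀ hpos]
  exact lt_of_lt_of_le hP.2 hc

/-- **The K-level contract of the outer sub-annulus** `|a| < |u| < 1`: same coordinate, thickness
`a`. -/
def outerCore : AnnulusCore A (outerTube C a) where
  u := C.u
  thick := a
  thick_ne := gauge_ne_zero' C a ha1
  thick_lt := ha2
  val_mem := fun P hP => by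
    obtain ⟨h1, -, h3⟩ := isValueAt_evalAt_u C hP.1
    exact ⟨evalAt P C.u, h1, hP.2, h3⟩
  bij := fun c h1 h2 => by
    obtain ⟨P, ⟨hP, hPu⟩, huniq⟩ := C.bij c (lt_trans ha1 h1) h2
    refine ⟨P, ⟨⟨hP, ?_⟩, hPu⟩, fun P' hP' => huniq P' ⟨hP'.1.1, hP'.2⟩⟩
    rw [evalAt_eq_of_isValueAt hPu]
    exact h1
  simple := fun P hP => C.simple P hP.1
  factor := fun y hy => by
    classical
    have hu : C.u ≠ 0 := coord_ne_zero' C a ha1 ha2
    obtain ⟨S, n, b, c, ε, hS, hc, hε, hyeq, -, -⟩ := C.tubeFact.exists_factor hu hy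
    let p : Place K F → Prop := fun Q => A.valuation a < A.valuation (evalAt Q C.u)
    let S₁ := S.filter p
    let S₂ := S.filter fun Q => ¬ p Q
    let δ : Place K F → F := fun Q => (C.u - algebraMap K F (evalAt Q C.u)) * C.u⁻¹
    have hS₁ : ∀ Q ∈ S₁, Q ∈ outerTube C a := fun Q hQ =>
      ⟨hS Q (Finset.mem_filter.mp hQ).1, (Finset.mem_filter.mp hQ).2⟩
    refine ⟨S₁, n, b + ∑ Q ∈ S₂, n Q, c, hS₁, hc, ?_⟩
    have hP₁ : C.u ^ (b + ∑ Q ∈ S₂, n Q) *
        ∏ Q ∈ S₁, (C.u - algebraMap K F (evalAt Q C.u)) ^ n Q ≠ 0 :=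
      mul_ne_zero (zpow_ne_zero _ hu) (Finset.prod_ne_zero_iff.mpr fun Q hQ =>
        zpow_ne_zero _ (C.tubeFact.sub_ne_zero_of_mem (hS Q (Finset.mem_filter.mp hQ).1)))
    have h2 : ∏ Q ∈ S₂, (C.u - algebraMap K F (evalAt Q C.u)) ^ n Q =
        C.u ^ (∑ Q ∈ S₂, n Q) * ∏ Q ∈ S₂, δ Q ^ n Q := by
      rw [← prod_zpow_const_aux S₂ hu n, ← Finset.prod_mul_distrib]
      refine Finset.prod_congr rfl fun Q _ => ?_
      rw [← mul_zpow]
      congr 1
      show C.u - algebraMap K F (evalAt Q C.u) =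
        C.u * ((C.u - algebraMap K F (evalAt Q C.u)) * C.u⁻¹)
      field_simp
    have hyeq' : y = algebraMap K F c * (C.u ^ (b + ∑ Q ∈ S₂, n Q) *
        ∏ Q ∈ S₁, (C.u - algebraMap K F (evalAt Q C.u)) ^ n Q) *
          ((∏ Q ∈ S₂, δ Q ^ n Q) * ε) := by
      rw [hyeq, ← Finset.prod_filter_mul_prod_filter_not S p, h2, zpow_add₀ hu]
      ring
    rw [mul_inv_smul_eq hc hP₁ hyeq']
    refine TubeUnit.mul (TubeUnit.prod _ _ fun Q hQ => TubeUnit.zpow ?_ _)
      (TubeUnit.mono (outerTube_subset C a) hε)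
    exact tubeUnit_outer_factor C a (not_lt.mp (Finset.mem_filter.mp hQ).2)

@[simp] theorem outerCore_u : (outerCore C a ha1 ha2).u = C.u := rfl

@[simp] theorem outerCore_thick : (outerCore C a ha1 ha2).thick = a := rfl

/-- **The K-level contract of the inner sub-annulus** `|thick| < |u| < |a|`: coordinate `u / a`,
thickness `thick / a`. -/
def innerCore : AnnulusCore A (innerTube C a) where
  u := a⁻¹ • C.u
  thick := a⁻¹ * C.thick
  thick_ne := mul_ne_zero (inv_ne_zero (gauge_ne_zero' C a ha1)) C.thick_ne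
  thick_lt := by
    have ha0 : a ≠ 0 := gauge_ne_zero' C a ha1
    have hpos : 0 < A.valuation a :=
      lt_of_le_of_ne zero_le ((Valuation.ne_zero_iff _).mpr ha0).symm
    rw [map_mul, map_inv₀, inv_mul_eq_div, div_lt_one₀ hpos]
    exact ha1
  val_mem := fun P hP => by
    have ha0 : a ≠ 0 := gauge_ne_zero' C a ha1
    have hpos : 0 < A.valuation a :=
      lt_of_le_of_ne zero_le ((Valuation.ne_zero_iff _).mpr ha0).symm
    obtain ⟨h1, h2, -⟩ := isValueAt_evalAt_u C hP.1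
    refine ⟨a⁻¹ * evalAt P C.u, h1.smul a⁻¹, ?_, ?_⟩
    · rw [map_mul, map_mul, map_inv₀]
      exact mul_lt_mul_of_pos_left h2 (inv_pos.mpr hpos)
    · rw [map_mul, map_inv₀, inv_mul_eq_div, div_lt_one₀ hpos]
      exact hP.2
  bij := fun c h1 h2 => by
    have ha0 : a ≠ 0 := gauge_ne_zero' C a ha1
    have hpos : 0 < A.valuation a :=
      lt_of_le_of_ne zero_le ((Valuation.ne_zero_iff _).mpr ha0).symm
    have h1' : A.valuation C.thick < A.valuation (a * c) := by
      rw [map_mul, map_inv₀] at h1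
      rw [map_mul]
      have := mul_lt_mul_of_pos_left h1 hpos
      rwa [← mul_assoc, mul_inv_cancel₀ hpos.ne', one_mul] at this
    have h2' : A.valuation (a * c) < A.valuation a := by
      rw [map_mul]
      have := mul_lt_mul_of_pos_left h2 hpos
      rwa [mul_one] at this
    obtain ⟨P, ⟨hP, hPu⟩, huniq⟩ := C.bij (a * c) h1' (lt_trans h2' ha2)
    have hval : ∀ P' : Place K F, IsValueAt P' (a⁻¹ • C.u) c ↔ IsValueAt P' C.u (a * c) := by
      intro P'
      constructor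
      · intro h
        have := h.smul a
        rwa [smul_smul, mul_inv_cancel₀ ha0, one_smul] at this
      · intro h
        have := h.smul a⁻¹
        rwa [← mul_assoc, inv_mul_cancel₀ ha0, one_mul] at this
    refine ⟨P, ⟨⟨hP, ?_⟩, (hval P).mpr hPu⟩, fun P' hP' =>
      huniq P' ⟨hP'.1.1, (hval P').mp hP'.2⟩⟩
    rw [evalAt_eq_of_isValueAt hPu]
    exact h2'
  simple := fun P hP => by
    have ha0 : a ≠ 0 := gauge_ne_zero' C a ha1
    obtain ⟨h1, -, -⟩ := isValueAt_evalAt_u C hP.1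
    have h2 : evalAt P (a⁻¹ • C.u) = a⁻¹ * evalAt P C.u :=
      evalAt_eq_of_isValueAt (h1.smul a⁻¹)
    have h3 : a⁻¹ • C.u - algebraMap K F (evalAt P (a⁻¹ • C.u)) =
        algebraMap K F a⁻¹ * (C.u - algebraMap K F (evalAt P C.u)) := by
      rw [h2, map_mul, Algebra.smul_def]
      ring
    have h4 : C.u - algebraMap K F (evalAt P C.u) ≠ 0 := C.tubeFact.sub_ne_zero_of_mem hP.1
    rw [h3, Place.ord_mul _ ((map_ne_zero _).mpr (inv_ne_zero ha0)) h4,
      Fermat.Agent.X0.Place.ord_algebraMap, zero_add]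
    exact C.simple P hP.1
  factor := fun y hy => by
    classical
    have ha0 : a ≠ 0 := gauge_ne_zero' C a ha1
    have haF : algebraMap K F a ≠ 0 := (map_ne_zero _).mpr ha0
    have hu : C.u ≠ 0 := coord_ne_zero' C a ha1 ha2
    have hu' : a⁻¹ • C.u ≠ 0 := smul_ne_zero (inv_ne_zero ha0) hu
    obtain ⟨S, n, b, c, ε, hS, hc, hε, hyeq, -, -⟩ := C.tubeFact.exists_factor hu hy
    let p : Place K F → Prop := fun Q => A.valuation (evalAt Q C.u) < A.valuation a
    let S₁ := S.filter p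
    let S₂ := S.filter fun Q => ¬ p Q
    let δ : Place K F → F := fun Q =>
      (C.u - algebraMap K F (evalAt Q C.u)) * (algebraMap K F (-evalAt Q C.u))⁻¹
    let κ : K := ∏ Q ∈ S₂, (-evalAt Q C.u) ^ n Q
    have hS₁ : ∀ Q ∈ S₁, Q ∈ innerTube C a := fun Q hQ =>
      ⟨hS Q (Finset.mem_filter.mp hQ).1, (Finset.mem_filter.mp hQ).2⟩
    have hev : ∀ Q ∈ S, evalAt Q (a⁻¹ • C.u) = a⁻¹ * evalAt Q C.u := fun Q hQ =>
      evalAt_eq_of_isValueAt ((isValueAt_evalAt_u C (hS Q hQ)).1.smul a⁻¹)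
    have hne : ∀ Q ∈ S, evalAt Q C.u ≠ 0 := fun Q hQ => evalAt_u_ne_zero C (hS Q hQ)
    have hκ : κ ≠ 0 := Finset.prod_ne_zero_iff.mpr fun Q hQ =>
      zpow_ne_zero _ (neg_ne_zero.mpr (hne Q (Finset.mem_filter.mp hQ).1))
    have hc' : c * a ^ b * a ^ (∑ Q ∈ S₁, n Q) * κ ≠ 0 :=
      mul_ne_zero (mul_ne_zero (mul_ne_zero hc (zpow_ne_zero _ ha0)) (zpow_ne_zero _ ha0)) hκ
    refine ⟨S₁, n, b, c * a ^ b * a ^ (∑ Q ∈ S₁, n Q) * κ, hS₁, hc', ?_⟩
    have hlin : ∀ Q ∈ S, C.u - algebraMap K F (evalAt Q C.u) =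
        algebraMap K F a * (a⁻¹ • C.u - algebraMap K F (evalAt Q (a⁻¹ • C.u))) := by
      intro Q hQ
      rw [hev Q hQ, map_mul, Algebra.smul_def, map_inv₀]
      field_simp
    have hP₁ : (a⁻¹ • C.u) ^ b *
        ∏ Q ∈ S₁, (a⁻¹ • C.u - algebraMap K F (evalAt Q (a⁻¹ • C.u))) ^ n Q ≠ 0 := by
      refine mul_ne_zero (zpow_ne_zero _ hu') (Finset.prod_ne_zero_iff.mpr fun Q hQ =>
        zpow_ne_zero _ ?_)
      have hQS := (Finset.mem_filter.mp hQ).1
      have h4 : C.u - algebraMap K F (evalAt Q C.u) ≠ 0 :=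
        C.tubeFact.sub_ne_zero_of_mem (hS Q hQS)
      rw [hlin Q hQS] at h4
      exact right_ne_zero_of_mul h4
    have h1 : ∏ Q ∈ S₁, (C.u - algebraMap K F (evalAt Q C.u)) ^ n Q =
        algebraMap K F a ^ (∑ Q ∈ S₁, n Q) *
          ∏ Q ∈ S₁, (a⁻¹ • C.u - algebraMap K F (evalAt Q (a⁻¹ • C.u))) ^ n Q := by
      rw [← prod_zpow_const_aux S₁ haF n, ← Finset.prod_mul_distrib]
      refine Finset.prod_congr rfl fun Q hQ => ?_
      rw [← mul_zpow, ← hlin Q (Finset.mem_filter.mp hQ).1]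
    have h2 : ∏ Q ∈ S₂, (C.u - algebraMap K F (evalAt Q C.u)) ^ n Q =
        algebraMap K F κ * ∏ Q ∈ S₂, δ Q ^ n Q := by
      show _ = algebraMap K F (∏ Q ∈ S₂, (-evalAt Q C.u) ^ n Q) * _
      rw [map_prod, ← Finset.prod_mul_distrib]
      refine Finset.prod_congr rfl fun Q hQ => ?_
      rw [map_zpow₀, ← mul_zpow]
      congr 1
      have h0 : algebraMap K F (-evalAt Q C.u) ≠ 0 :=
        (map_ne_zero _).mpr (neg_ne_zero.mpr (hne Q (Finset.mem_filter.mp hQ).1))
      show C.u - algebraMap K F (evalAt Q C.u) = algebraMap K F (-evalAt Q C.u) *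
        ((C.u - algebraMap K F (evalAt Q C.u)) * (algebraMap K F (-evalAt Q C.u))⁻¹)
      field_simp
    have h3 : C.u ^ b = algebraMap K F a ^ b * (a⁻¹ • C.u) ^ b := by
      rw [← mul_zpow]
      congr 1
      rw [Algebra.smul_def, map_inv₀]
      field_simp
    have hyeq' : y = algebraMap K F (c * a ^ b * a ^ (∑ Q ∈ S₁, n Q) * κ) *
        ((a⁻¹ • C.u) ^ b *
          ∏ Q ∈ S₁, (a⁻¹ • C.u - algebraMap K F (evalAt Q (a⁻¹ • C.u))) ^ n Q) *
          ((∏ Q ∈ S₂, δ Q ^ n Q) * ε) := by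
      rw [hyeq, ← Finset.prod_filter_mul_prod_filter_not S p, h1, h2, h3, map_mul, map_mul,
        map_mul, map_zpow₀, map_zpow₀]
      ring
    rw [mul_inv_smul_eq hc' hP₁ hyeq']
    refine TubeUnit.mul (TubeUnit.prod _ _ fun Q hQ => TubeUnit.zpow ?_ _)
      (TubeUnit.mono (innerTube_subset C a) hε)
    exact tubeUnit_inner_factor C a ha1 (not_lt.mp (Finset.mem_filter.mp hQ).2)

@[simp] theorem innerCore_u : (innerCore C a ha1 ha2).u = a⁻¹ • C.u := rfl

@[simp] theorem innerCore_thick : (innerCore C a ha1 ha2).thick = a⁻¹ * C.thick := rfl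

end Cores

end Fermat.Agent.BR3.SRef
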