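import Mathlib
import Fermat.Agent.BR2.SetupOfData
import Fermat.Agent.BR3.SRef.Gauge
import Fermat.Agent.BR3.SRef.SubAnnulus

/-!
# Program C (S36), node (C-SREF), part 4: `S'ref` for the semistable setup of `X₀(qM)` at `q`

`Dt : Final.ModularData M q B hB hqM`, `S' := BR2.SetupOfData.setup Dt` (components `0`, `1`, nodes
the crossings `e`).

* `inputs Dt : CircleInputsN (setup Dt)` (the annulus charts of `SetupOfData.circleInputs Dt`);
  `inputs_u` : the annulus coordinate is `annulusCoord Dt e` (`rfl`); `thick Dt e`, `core Dt e`;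
* `srefM Dt a₀ hadm` : the one-level refinement of `S'` at the gauges `a₀ e`;
* `IsGaugeA Dt a₀` : `|a₀ e| ^ (q + 1) = |thick e|` (the critical circle along `a`, BOARD v1.3),
  `IsGaugeB Dt a₀` : `|a₀ e| ^ (q + 1) = |thick e| ^ q` (the critical circle along `b`); both are
  admissible (`IsGaugeA.adm`, `IsGaugeB.adm`) and exist (`exists_gaugeA`, `exists_gaugeB`, with
  `a₀ e ^ (q + 1) = thick e` resp. `= thick e ^ q` on the nose);
* `srefA Dt a₀ h`, `srefB Dt a₀ h`;
* `ringE Dt a₀ hadm e`, `resE Dt a₀ hadm e` : the valuation ring and the residue map of the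
  exceptional component `E_e` (`circleRing`, `circleRes`; `srefM_O_exc`, `srefM_res_exc` by `rfl`),
  `resE_coord : resE ⟨(a₀ e)⁻¹ • annulusCoord Dt e, _⟩ = X`;
* `outerCoreM`, `innerCoreM` : the K-level contracts of the two sub-annuli of `e`.
-/

set_option autoImplicit false
set_option synthInstance.maxHeartbeats 400000
set_option linter.unusedSectionVars false

noncomputable section

/- S36 build-time patch: file-local shortcut instances. They only shorten instance search;
each is the instance that the search finds anyway (reducible, same terms after unfolding). -/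
local instance (priority := 100000) Fermat.Agent.BR3.FastInst.instAlgFullC_SRef_Modular
    {k : Type*} [Field k] (N : ℕ) :
    Algebra k ↥(ModularCurve.modularFunctionFieldFullC k N) := inferInstance
local instance (priority := 100000) Fermat.Agent.BR3.FastInst.instFieldFullC_SRef_Modular
    {k : Type*} [Field k] (N : ℕ) :
    Field ↥(ModularCurve.modularFunctionFieldFullC k N) := inferInstance
local instance (priority := 100000) Fermat.Agent.BR3.FastInst.instAlgLaurent_SRef_Modular
    {k : Type*} [Field k] : Algebra k (LaurentSeries k) := inferInstance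


namespace Fermat.Agent.BR3.SRef.Modular

open AlgebraicCurve ModularCurve IsLocalRing
open Fermat.Agent.Red Fermat.Agent.Val Fermat.Agent.X0 Fermat.Agent.BR.SS Fermat.Agent.BR.Refine
open Fermat.Agent.BR.Centre Fermat.Agent.BR.Circle Fermat.Agent.BR.S0
open Fermat.Agent.BR.S0.PointDict Fermat.Agent.BR.S0.RedModular Fermat.Agent.BR.Final
open Fermat.Agent.BR2.SetupOfData Fermat.Agent.BR3.CircleN Fermat.Agent.BR3.SRef

variable {M q : ℕ} [NeZero M] [hq : Fact q.Prime]
variable {B : ValuationSubring (AlgebraicClosure ℚ)} {hB : B.LiesOverPrime q} {hqM : ¬ q ∣ M}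
variable [IsAlgClosed (ResidueField B)]

local notation "kB" => IsLocalRing.ResidueField B
local notation "FtM" => modularFunctionFieldFullC (IsLocalRing.ResidueField B) M
local notation "Kb" => AlgebraicClosure ℚ

/-- (shortcut instance: the search through the generic instances costs seconds per declaration) -/
local instance (priority := 100000) instAlgebraFtMShortcut :
    Algebra (IsLocalRing.ResidueField B)
      (modularFunctionFieldFullC (IsLocalRing.ResidueField B) M) :=
  inferInstance

variable (Dt : ModularData M q B hB hqM)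

/-- **The annulus charts of `S'`**, in the form without the two-component field. -/
def inputs : CircleInputsN (setup Dt) := CircleInputsN.ofCircleInputs (circleInputs Dt)

theorem inputs_u (e : Crossing (chartDataModular B hB hqM)) :
    ((inputs Dt).ch e).u = annulusCoord Dt e := rfl

/-- The thickness element of the annulus of the crossing `e`. -/
def thick (e : Crossing (chartDataModular B hB hqM)) : Kb := ((inputs Dt).ch e).thick

theorem thick_eq (e : Crossing (chartDataModular B hB hqM)) :
    thick Dt e = (Dt.L (nonempty_crossing Dt) e).thick := rfl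

theorem thick_ne (e : Crossing (chartDataModular B hB hqM)) : thick Dt e ≠ 0 :=
  ((inputs Dt).ch e).thick_ne

theorem thick_lt (e : Crossing (chartDataModular B hB hqM)) : B.valuation (thick Dt e) < 1 :=
  ((inputs Dt).ch e).thick_lt

/-- The K-level contract of the tube of the crossing `e`. -/
def core (e : Crossing (chartDataModular B hB hqM)) : AnnulusCore B (tube (setup Dt) e) :=
  ((inputs Dt).ch e).toCore

@[simp] theorem core_u (e : Crossing (chartDataModular B hB hqM)) :
    (core Dt e).u = annulusCoord Dt e := rfl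

@[simp] theorem core_thick (e : Crossing (chartDataModular B hB hqM)) :
    (core Dt e).thick = thick Dt e := rfl

theorem adm_iff (e : Crossing (chartDataModular B hB hqM)) (a : Kb) :
    (inputs Dt).adm e a ↔ B.valuation (thick Dt e) < B.valuation a ∧ B.valuation a < 1 :=
  Iff.rfl

section Gauge

variable (a₀ : Crossing (chartDataModular B hB hqM) → Kb) (hadm : ∀ e, (inputs Dt).adm e (a₀ e))

/-- **The one-level refinement of `S'`** at the gauges `a₀ e`. -/
def srefM := sref (inputs Dt) a₀ hadm

/-- The valuation ring of the exceptional component `E_e`: the ring of the circle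
`|u e| = |a₀ e|`. -/
def ringE (e : Crossing (chartDataModular B hB hqM)) : ValuationSubring (Fb (M * q)) :=
  circleRing (core Dt e) (a₀ e) (hadm e).1 (hadm e).2

/-- The residue map of the exceptional component `E_e`, onto `kB(X)`, `X = res (u e / a₀ e)`. -/
def resE (e : Crossing (chartDataModular B hB hqM)) : ringE Dt a₀ hadm e →+* RatFunc kB :=
  circleRes (core Dt e) (a₀ e) (hadm e).1 (hadm e).2

theorem srefM_O_exc (e : Crossing (chartDataModular B hB hqM)) :
    (srefM Dt a₀ hadm).O (exc (inputs Dt) a₀ hadm e) = ringE Dt a₀ hadm e := rfl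

theorem srefM_res_exc (e : Crossing (chartDataModular B hB hqM)) :
    (srefM Dt a₀ hadm).res (exc (inputs Dt) a₀ hadm e) = resE Dt a₀ hadm e := rfl

theorem srefM_O_old (v : Fin 2) :
    (srefM Dt a₀ hadm).O (old (inputs Dt) a₀ hadm v) = (compW B hB hqM v).O := rfl

theorem srefM_res_old (v : Fin 2) :
    (srefM Dt a₀ hadm).res (old (inputs Dt) a₀ hadm v) = (compW B hB hqM v).res := rfl

theorem coord_mem_ringE (e : Crossing (chartDataModular B hB hqM)) :
    (a₀ e)⁻¹ • annulusCoord Dt e ∈ ringE Dt a₀ hadm e :=
  coord_mem_circleRing (core Dt e) (a₀ e) (hadm e).1 (hadm e).2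

/-- The coordinate of the exceptional component is the residue of `u e / a₀ e`. -/
theorem resE_coord (e : Crossing (chartDataModular B hB hqM)) :
    resE Dt a₀ hadm e ⟨(a₀ e)⁻¹ • annulusCoord Dt e, coord_mem_ringE Dt a₀ hadm e⟩ = RatFunc.X :=
  circleRes_coord (core Dt e) (a₀ e) (hadm e).1 (hadm e).2

/-- The tube of the outer node of `e` in `S'ref`: `|a₀ e| < |u e| < 1`. -/
theorem tube_outerM (e : Crossing (chartDataModular B hB hqM)) :
    tube (srefM Dt a₀ hadm) (outer (inputs Dt) a₀ hadm e) = outerTube (core Dt e) (a₀ e) :=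
  tube_outer (inputs Dt) a₀ hadm e

/-- The tube of the inner node of `e` in `S'ref`: `|thick e| < |u e| < |a₀ e|`. -/
theorem tube_innerM (e : Crossing (chartDataModular B hB hqM)) :
    tube (srefM Dt a₀ hadm) (inner (inputs Dt) a₀ hadm e) = innerTube (core Dt e) (a₀ e) :=
  tube_inner (inputs Dt) a₀ hadm e

/-- The K-level contract of the outer sub-annulus of `e` (coordinate `u e`, thickness `a₀ e`). -/
def outerCoreM (e : Crossing (chartDataModular B hB hqM)) :
    AnnulusCore B (outerTube (core Dt e) (a₀ e)) :=
  outerCore (core Dt e) (a₀ e) (hadm e).1 (hadm e).2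

/-- The K-level contract of the inner sub-annulus of `e` (coordinate `u e / a₀ e`, thickness
`thick e / a₀ e`). -/
def innerCoreM (e : Crossing (chartDataModular B hB hqM)) :
    AnnulusCore B (innerTube (core Dt e) (a₀ e)) :=
  innerCore (core Dt e) (a₀ e) (hadm e).1 (hadm e).2

@[simp] theorem outerCoreM_u (e : Crossing (chartDataModular B hB hqM)) :
    (outerCoreM Dt a₀ hadm e).u = annulusCoord Dt e := rfl

@[simp] theorem outerCoreM_thick (e : Crossing (chartDataModular B hB hqM)) :
    (outerCoreM Dt a₀ hadm e).thick = a₀ e := rfl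

@[simp] theorem innerCoreM_u (e : Crossing (chartDataModular B hB hqM)) :
    (innerCoreM Dt a₀ hadm e).u = (a₀ e)⁻¹ • annulusCoord Dt e := rfl

@[simp] theorem innerCoreM_thick (e : Crossing (chartDataModular B hB hqM)) :
    (innerCoreM Dt a₀ hadm e).thick = (a₀ e)⁻¹ * thick Dt e := rfl

/-- **No torsion in the kernel of the reduction for `S'ref`** (level without elliptic points). -/
theorem noTorsionInKernel_srefM (h2 : nuTwo M = 0) (h3 : nuThree M = 0) :
    letI := fintypeCrossing Dt
    NoTorsionInKernel (srefM Dt a₀ hadm) := by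
  letI := fintypeCrossing Dt
  exact noTorsionInKernel_sref (inputs Dt) a₀ hadm (isRankOne Dt) (Fermat.Agent.Val.riemannPkg_bar (M * q))
    (riemannPkg Dt) (genus_eq Dt h2 h3)

end Gauge

/-! ### The two critical gauges -/

/-- `a₀` is a critical gauge along `a`: `|a₀ e| ^ (q + 1) = |thick e|`. -/
def IsGaugeA (a₀ : Crossing (chartDataModular B hB hqM) → Kb) : Prop :=
  ∀ e, B.valuation (a₀ e) ^ (q + 1) = B.valuation (thick Dt e)

/-- `a₀` is a critical gauge along `b`: `|a₀ e| ^ (q + 1) = |thick e| ^ q`. -/
def IsGaugeB (a₀ : Crossing (chartDataModular B hB hqM) → Kb) : Prop :=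
  ∀ e, B.valuation (a₀ e) ^ (q + 1) = B.valuation (thick Dt e) ^ q

variable {Dt}

theorem IsGaugeA.adm {a₀ : Crossing (chartDataModular B hB hqM) → Kb} (h : IsGaugeA Dt a₀)
    (e : Crossing (chartDataModular B hB hqM)) : (inputs Dt).adm e (a₀ e) :=
  adm_of_pow_eq (inputs Dt) (m := 1) (n := q + 1) Nat.one_pos
    (Nat.lt_succ_of_le hq.out.one_le) (fun e => by rw [pow_one]; exact h e) e

theorem IsGaugeB.adm {a₀ : Crossing (chartDataModular B hB hqM) → Kb} (h : IsGaugeB Dt a₀)
    (e : Crossing (chartDataModular B hB hqM)) : (inputs Dt).adm e (a₀ e) :=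
  adm_of_pow_eq (inputs Dt) (m := q) (n := q + 1) hq.out.pos (Nat.lt_succ_self q) h e

variable (Dt)

/-- A critical gauge along `a` exists, with `a₀ e ^ (q + 1) = thick e`. -/
theorem exists_gaugeA :
    ∃ a₀ : Crossing (chartDataModular B hB hqM) → Kb,
      (∀ e, a₀ e ^ (q + 1) = thick Dt e) ∧ IsGaugeA Dt a₀ := by
  obtain ⟨a₀, h, -⟩ := exists_gauge (inputs Dt) (m := 1) (n := q + 1) Nat.one_pos
    (Nat.lt_succ_of_le hq.out.one_le)
  refine ⟨a₀, fun e => by rw [h e, pow_one]; rfl, fun e => ?_⟩
  rw [← map_pow, h e, pow_one]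
  rfl

/-- A critical gauge along `b` exists, with `a₀ e ^ (q + 1) = thick e ^ q`. -/
theorem exists_gaugeB :
    ∃ a₀ : Crossing (chartDataModular B hB hqM) → Kb,
      (∀ e, a₀ e ^ (q + 1) = thick Dt e ^ q) ∧ IsGaugeB Dt a₀ := by
  obtain ⟨a₀, h, -⟩ := exists_gauge (inputs Dt) (m := q) (n := q + 1) hq.out.pos
    (Nat.lt_succ_self q)
  refine ⟨a₀, fun e => h e, fun e => ?_⟩
  rw [← map_pow, h e, map_pow]
  rfl

/-- **`S'ref_a`**: the one-level refinement of `S'` at the critical circles along `a`. -/
def srefA (a₀ : Crossing (chartDataModular B hB hqM) → Kb) (h : IsGaugeA Dt a₀) :=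
  srefM Dt a₀ h.adm

/-- **`S'ref_b`**: the one-level refinement of `S'` at the critical circles along `b`. -/
def srefB (a₀ : Crossing (chartDataModular B hB hqM) → Kb) (h : IsGaugeB Dt a₀) :=
  srefM Dt a₀ h.adm

end Fermat.Agent.BR3.SRef.Modular
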